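import Mathlib
import Fermat.Agent.S16.H75.HeckeSys

/-!
# S41, unit U2 (generic part): correspondence systems between two subgroups of `SL(2, ℤ)`

Two-group version of `Fermat.Agent.S16.H75.IsHeckeSys`.  Let `Γ₁ Γ₂ ≤ SL(2, ℤ)` and let
`α : ι → M₂(ℤ)` be a finite family of integer matrices of nonzero determinant such that for every
`γ ∈ Γ₁` and every `i` there are a unique index `i'` and a unique `γ' ∈ Γ₂` with
`α i * γ = γ' * α i'`.  Then `(corrOp ψ)(γ) = ∑ i, ψ (γ'_i)` is an additive map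
`Hom(Γ₂, A) → Hom(Γ₁, A)`, natural in `A`.  Restriction, conjugation, transfer and Hecke operators
are all of this form; compositions are computed by `corrOp_corrOp`, and two systems which differ
by left multiplication with elements of `Γ₂` and a bijection of the index sets give the same
operator (`corrOp_congr`).
-/

set_option autoImplicit false

open scoped MatrixGroups
open Fermat.Agent.S16.H75

namespace Fermat.Agent.S41.H41

/-- A correspondence system from `Γ₁` to `Γ₂`. -/
structure IsCorrSys (Γ₁ Γ₂ : Subgroup SL(2, ℤ)) {ι : Type*}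
    (α : ι → Matrix (Fin 2) (Fin 2) ℤ) : Prop where
  det_ne : ∀ i, (α i).det ≠ 0
  ex : ∀ (γ : Γ₁) (i : ι), ∃ (i' : ι) (γ' : Γ₂), α i * mat γ = mat γ' * α i'
  uniq : ∀ (i i' : ι) (g : Γ₂), α i = mat g * α i' → i = i'

namespace IsCorrSys

variable {Γ₁ Γ₂ : Subgroup SL(2, ℤ)} {ι : Type*} {α : ι → Matrix (Fin 2) (Fin 2) ℤ}
  (h : IsCorrSys Γ₁ Γ₂ α)

/-- The permutation of the representatives induced by `γ`. -/
noncomputable def perm (γ : Γ₁) (i : ι) : ι := (h.ex γ i).choose

/-- The cocycle: `α i * γ = coc γ i * α (perm γ i)`. -/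
noncomputable def coc (γ : Γ₁) (i : ι) : Γ₂ := (h.ex γ i).choose_spec.choose

theorem spec (γ : Γ₁) (i : ι) : α i * mat γ = mat (h.coc γ i) * α (h.perm γ i) :=
  (h.ex γ i).choose_spec.choose_spec

include h in
theorem unique {γ : Γ₁} {i i' : ι} {γ' : Γ₂} (e : α i * mat γ = mat γ' * α i') :
    h.perm γ i = i' ∧ h.coc γ i = γ' := by
  have e' := h.spec γ i
  rw [e] at e'
  have h1 : α (h.perm γ i) = mat ((h.coc γ i)⁻¹ * γ') * α i' := by
    rw [mat_mul, Matrix.mul_assoc, e', ← Matrix.mul_assoc, mat_inv_mul, Matrix.one_mul]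
  have h2 := h.uniq _ _ _ h1
  refine ⟨h2, ?_⟩
  rw [h2] at e'
  exact mat_injective (mul_right_cancel_of_det_ne_zero (h.det_ne i') e').symm

theorem perm_one (i : ι) : h.perm 1 i = i :=
  (h.unique (γ := 1) (i := i) (i' := i) (γ' := 1) (by rw [mat_one, Matrix.mul_one,
    mat_one, Matrix.one_mul])).1

theorem coc_one (i : ι) : h.coc 1 i = 1 :=
  (h.unique (γ := 1) (i := i) (i' := i) (γ' := 1) (by rw [mat_one, Matrix.mul_one,
    mat_one, Matrix.one_mul])).2

theorem mul_aux (γ δ : Γ₁) (i : ι) :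
    α i * mat (γ * δ) = mat (h.coc γ i * h.coc δ (h.perm γ i)) * α (h.perm δ (h.perm γ i)) := by
  rw [mat_mul, ← Matrix.mul_assoc, h.spec γ i, Matrix.mul_assoc, h.spec δ (h.perm γ i),
    ← Matrix.mul_assoc, ← mat_mul]

theorem perm_mul (γ δ : Γ₁) (i : ι) : h.perm (γ * δ) i = h.perm δ (h.perm γ i) :=
  (h.unique (h.mul_aux γ δ i)).1

theorem coc_mul (γ δ : Γ₁) (i : ι) : h.coc (γ * δ) i = h.coc γ i * h.coc δ (h.perm γ i) :=
  (h.unique (h.mul_aux γ δ i)).2

/-- The permutation of the representatives induced by `γ`, as an equivalence. -/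
noncomputable def permEquiv (γ : Γ₁) : ι ≃ ι where
  toFun := h.perm γ
  invFun := h.perm γ⁻¹
  left_inv i := by rw [← h.perm_mul, mul_inv_cancel, h.perm_one]
  right_inv i := by rw [← h.perm_mul, inv_mul_cancel, h.perm_one]

@[simp] theorem permEquiv_apply (γ : Γ₁) (i : ι) : h.permEquiv γ i = h.perm γ i := rfl

variable [Fintype ι] {A : Type*} [AddCommGroup A]

/-- The operator attached to a correspondence system, on a single homomorphism. -/
noncomputable def corrOpFun (ψ : Additive Γ₂ →+ A) : Additive Γ₁ →+ A where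
  toFun γ := ∑ i, ψ (Additive.ofMul (h.coc (Additive.toMul γ) i))
  map_zero' := by
    show ∑ i, ψ (Additive.ofMul (h.coc 1 i)) = 0
    simp only [h.coc_one, ofMul_one, map_zero, Finset.sum_const_zero]
  map_add' γ δ := by
    show ∑ i, ψ (Additive.ofMul (h.coc (Additive.toMul γ * Additive.toMul δ) i)) =
      ∑ i, ψ (Additive.ofMul (h.coc (Additive.toMul γ) i)) +
        ∑ i, ψ (Additive.ofMul (h.coc (Additive.toMul δ) i))
    rw [← Equiv.sum_comp (h.permEquiv (Additive.toMul γ))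
      (fun i => ψ (Additive.ofMul (h.coc (Additive.toMul δ) i))), ← Finset.sum_add_distrib]
    refine Finset.sum_congr rfl fun i _ => ?_
    rw [h.coc_mul, ofMul_mul, map_add, permEquiv_apply]

/-- The operator `Hom(Γ₂, A) → Hom(Γ₁, A)` attached to a correspondence system. -/
noncomputable def corrOp : (Additive Γ₂ →+ A) →+ (Additive Γ₁ →+ A) where
  toFun := h.corrOpFun
  map_zero' := by
    refine AddMonoidHom.ext fun γ => ?_
    show ∑ i, (0 : Additive Γ₂ →+ A) (Additive.ofMul (h.coc (Additive.toMul γ) i)) = 0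
    simp
  map_add' ψ φ := by
    refine AddMonoidHom.ext fun γ => ?_
    show ∑ i, (ψ + φ) (Additive.ofMul (h.coc (Additive.toMul γ) i)) =
      ∑ i, ψ (Additive.ofMul (h.coc (Additive.toMul γ) i)) +
        ∑ i, φ (Additive.ofMul (h.coc (Additive.toMul γ) i))
    simp [Finset.sum_add_distrib]

theorem corrOp_apply (ψ : Additive Γ₂ →+ A) (γ : Γ₁) :
    h.corrOp ψ (Additive.ofMul γ) = ∑ i, ψ (Additive.ofMul (h.coc γ i)) := rfl

/-- Naturality in the coefficient group. -/
theorem corrOp_comp {B : Type*} [AddCommGroup B] (φ : A →+ B) (ψ : Additive Γ₂ →+ A) :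
    h.corrOp (φ.comp ψ) = φ.comp (h.corrOp ψ) := by
  refine AddMonoidHom.ext fun γ => ?_
  show ∑ i, φ (ψ (Additive.ofMul (h.coc (Additive.toMul γ) i))) =
    φ (∑ i, ψ (Additive.ofMul (h.coc (Additive.toMul γ) i)))
  rw [map_sum]

/-- Two correspondence systems whose representatives differ by left multiplication with elements
of `Γ₂` (and a bijection of the index sets) define the same operator. -/
theorem corrOp_congr {ι' : Type*} [Fintype ι'] {α' : ι' → Matrix (Fin 2) (Fin 2) ℤ}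
    (h' : IsCorrSys Γ₁ Γ₂ α') (π : ι ≃ ι') (t : ι → Γ₂)
    (hα : ∀ i, α' (π i) = mat (t i) * α i) :
    (h'.corrOp : (Additive Γ₂ →+ A) →+ (Additive Γ₁ →+ A)) = h.corrOp := by
  refine AddMonoidHom.ext fun ψ => AddMonoidHom.ext fun γ => ?_
  set g : Γ₁ := Additive.toMul γ with hg
  have key : ∀ i, h'.perm g (π i) = π (h.perm g i) ∧
      h'.coc g (π i) = t i * h.coc g i * (t (h.perm g i))⁻¹ := by
    intro i
    refine h'.unique ?_
    rw [hα, hα, Matrix.mul_assoc, h.spec g i, mat_mul, mat_mul]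
    simp only [Matrix.mul_assoc]
    rw [← Matrix.mul_assoc (mat (t (h.perm g i))⁻¹), mat_inv_mul, Matrix.one_mul]
  show ∑ i', ψ (Additive.ofMul (h'.coc g i')) = ∑ i, ψ (Additive.ofMul (h.coc g i))
  rw [← Equiv.sum_comp π (fun i' => ψ (Additive.ofMul (h'.coc g i')))]
  simp only [(key _).2, ofMul_mul, ofMul_inv, map_add, map_neg, Finset.sum_add_distrib,
    Finset.sum_neg_distrib]
  have h2 : ∑ i, ψ (Additive.ofMul (t (h.perm g i))) = ∑ i, ψ (Additive.ofMul (t i)) := by
    rw [← Equiv.sum_comp (h.permEquiv g) (fun i => ψ (Additive.ofMul (t i)))]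
    rfl
  rw [h2]
  abel

/-- Composition of two correspondence operators, as a double sum. -/
theorem corrOp_corrOp_apply {Γ₃ : Subgroup SL(2, ℤ)} {κ : Type*} [Fintype κ]
    {β : κ → Matrix (Fin 2) (Fin 2) ℤ} (h' : IsCorrSys Γ₂ Γ₃ β) (ψ : Additive Γ₃ →+ A) (γ : Γ₁) :
    h.corrOp (h'.corrOp ψ) (Additive.ofMul γ) =
      ∑ i, ∑ j, ψ (Additive.ofMul (h'.coc (h.coc γ i) j)) := rfl

/-- If the products `β j * α i` again form a correspondence system, the composition of the two
operators is the operator of the product system. -/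
theorem corrOp_corrOp {Γ₃ : Subgroup SL(2, ℤ)} {κ : Type*} [Fintype κ]
    {β : κ → Matrix (Fin 2) (Fin 2) ℤ} (h' : IsCorrSys Γ₂ Γ₃ β)
    (hprod : IsCorrSys Γ₁ Γ₃ (fun x : ι × κ => β x.2 * α x.1)) (ψ : Additive Γ₃ →+ A) :
    h.corrOp (h'.corrOp ψ) = hprod.corrOp ψ := by
  refine AddMonoidHom.ext fun γ => ?_
  set g : Γ₁ := Additive.toMul γ with hg
  have key : ∀ x : ι × κ, hprod.coc g x = h'.coc (h.coc g x.1) x.2 := by
    intro x
    refine (hprod.unique (i' := (h.perm g x.1, h'.perm (h.coc g x.1) x.2)) ?_).2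
    show β x.2 * α x.1 * mat g = _ * (β (h'.perm (h.coc g x.1) x.2) * α (h.perm g x.1))
    rw [Matrix.mul_assoc, h.spec g x.1, ← Matrix.mul_assoc, h'.spec (h.coc g x.1) x.2,
      Matrix.mul_assoc]
  show ∑ i, ∑ j, ψ (Additive.ofMul (h'.coc (h.coc g i) j)) =
    ∑ x : ι × κ, ψ (Additive.ofMul (hprod.coc g x))
  rw [Fintype.sum_prod_type]
  exact Finset.sum_congr rfl fun i _ => Finset.sum_congr rfl fun j _ => by rw [key]

/-- A correspondence operator is `card ι` times `ψ ∘ θ` on every homomorphism `χ = ψ ∘ coc`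
whose values on the cocycle differ from `χ₁ γ` by a coboundary in the index. -/
theorem corrOp_eq_card_nsmul (χ : Additive Γ₂ →+ A) (χ₁ : Additive Γ₁ →+ A) (w : ι → A)
    (hχ : ∀ (γ : Γ₁) (i : ι),
      χ (Additive.ofMul (h.coc γ i)) = χ₁ (Additive.ofMul γ) + w (h.perm γ i) - w i) :
    h.corrOp χ = Fintype.card ι • χ₁ := by
  refine AddMonoidHom.ext fun γ => ?_
  show ∑ i, χ (Additive.ofMul (h.coc (Additive.toMul γ) i)) = (Fintype.card ι • χ₁) γ
  simp only [hχ, Finset.sum_add_distrib, Finset.sum_sub_distrib, Finset.sum_const,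
    Finset.card_univ]
  have h2 : ∑ i, w (h.perm (Additive.toMul γ) i) = ∑ i, w i :=
    Equiv.sum_comp (h.permEquiv (Additive.toMul γ)) w
  rw [h2, add_sub_cancel_right]
  rfl

omit [Fintype ι] in
/-- The determinant-one conjugation relation satisfied by the cocycle on a fixed index. -/
theorem coc_of_perm_eq {γ : Γ₁} {i : ι} (hi : h.perm γ i = i) :
    α i * mat γ = mat (h.coc γ i) * α i := by
  have := h.spec γ i
  rwa [hi] at this

end IsCorrSys

/-- A Hecke system in the sense of `S16/H75` is a correspondence system from `Γ` to `Γ`. -/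
theorem isCorrSys_of_isHeckeSys {Γ : Subgroup SL(2, ℤ)} {ι : Type*}
    {α : ι → Matrix (Fin 2) (Fin 2) ℤ} (h : IsHeckeSys Γ α) : IsCorrSys Γ Γ α :=
  ⟨h.det_ne, h.ex, h.uniq⟩

/-- The Hecke operator of `S16/H75` is the correspondence operator of the same system. -/
theorem corrOp_eq_heckeOp {Γ : Subgroup SL(2, ℤ)} {ι : Type*} [Fintype ι]
    {α : ι → Matrix (Fin 2) (Fin 2) ℤ} (h : IsHeckeSys Γ α) {A : Type*} [AddCommGroup A] :
    ((isCorrSys_of_isHeckeSys h).corrOp : (Additive Γ →+ A) →+ (Additive Γ →+ A)) = h.heckeOp := by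
  refine AddMonoidHom.ext fun ψ => AddMonoidHom.ext fun γ => ?_
  show ∑ i, ψ (Additive.ofMul ((isCorrSys_of_isHeckeSys h).coc (Additive.toMul γ) i)) =
    ∑ i, ψ (Additive.ofMul (h.coc (Additive.toMul γ) i))
  refine Finset.sum_congr rfl fun i _ => ?_
  rw [((isCorrSys_of_isHeckeSys h).unique (h.spec (Additive.toMul γ) i)).2]

end Fermat.Agent.S41.H41
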