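import Mathlib
import Fermat.Agent.S16.H75.Gamma0Hecke
import Fermat.Agent.S41.H41.CorrSys

/-!
# S41, unit U2 (definitions): the degeneracy maps and transfers between levels `N` and `N q`

For `q` prime, `q ∤ N`, `Γ = Γ₀(N)`, `Γ' = Γ₀(N q)` and an abelian group `A`:

* `alpha1 N q A : Hom(Γ, A) → Hom(Γ', A)`, restriction;
* `alpha2 N q A : Hom(Γ, A) → Hom(Γ', A)`, `ψ ↦ (g ↦ ψ (δ g δ⁻¹))`, `δ = diag(q, 1)`,
  `δ [a b; c d] δ⁻¹ = [a, q b; c / q, d]`;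
* `beta1 N q A : Hom(Γ', A) → Hom(Γ, A)`, the transfer (corestriction) for `Γ' ≤ Γ`, written with
  the representatives `[1 0; N j 1]` (`j < q`) and `[a b; N q]` of `Γ' \ Γ`;
* `beta2 N q A : Hom(Γ', A) → Hom(Γ, A)`, the transfer twisted by `δ`, written with the
  `(Γ, Γ')`-correspondence system `[1 j; 0 q]` (`j < q`), `[q b; q N, q d]`.

All four are correspondence operators in the sense of `CorrSys.lean`.
-/

set_option autoImplicit false

open CongruenceSubgroup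
open scoped MatrixGroups
open Fermat.Agent.S16.H75

namespace Fermat.Agent.S41.H41

/-! ### The four families -/

/-- The family `{1}` (restriction). -/
def famRes : Unit → Matrix (Fin 2) (Fin 2) ℤ := fun _ => 1

/-- The family `{diag(q, 1)}` (conjugation by `δ`). -/
def famDelta (q : ℕ) : Unit → Matrix (Fin 2) (Fin 2) ℤ := fun _ => !![(q : ℤ), 0; 0, 1]

/-- Representatives of `Γ₀(N q) \ Γ₀(N)`: `[1 0; N j 1]` for `j < q` and `[a b; N q]` with
`a q - b N = 1`. -/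
noncomputable def famCor1 (N q : ℕ) : Option (Fin q) → Matrix (Fin 2) (Fin 2) ℤ
  | some j => !![1, 0; (N : ℤ) * (j : ℕ), 1]
  | none => !![Int.gcdA q N, -Int.gcdB q N; (N : ℤ), (q : ℤ)]

/-- The `(Γ₀(N), Γ₀(N q))`-system `diag(1, q) t`, `t` running through representatives of
`(Γ₀(N) ∩ Γ⁰(q)) \ Γ₀(N)`: `[1 j; 0 q]` for `j < q` and `[q b; q N, q d]` with `q d - N b = 1`. -/
noncomputable def famCor2 (N q : ℕ) : Option (Fin q) → Matrix (Fin 2) (Fin 2) ℤ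
  | some j => !![1, ((j : ℕ) : ℤ); 0, (q : ℤ)]
  | none => !![(q : ℤ), -Int.gcdB q N; (q : ℤ) * N, (q : ℤ) * Int.gcdA q N]

theorem mem_Gamma0_of_mem_mul {N q : ℕ} {g : SL(2, ℤ)} (hg : g ∈ Gamma0 (N * q)) :
    g ∈ Gamma0 N := by
  rw [mem_Gamma0_iff_dvd] at hg ⊢
  exact dvd_trans (by push_cast; exact dvd_mul_right _ _) hg

/-- The inclusion `Γ₀(N q) → Γ₀(N)`. -/
def inclGamma (N q : ℕ) : Gamma0 (N * q) →* Gamma0 N where
  toFun g := ⟨g.1, mem_Gamma0_of_mem_mul g.2⟩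
  map_one' := rfl
  map_mul' _ _ := rfl

theorem mat_inclGamma {N q : ℕ} (g : Gamma0 (N * q)) : mat (inclGamma N q g) = mat g := rfl

theorem isCorrSys_res (N q : ℕ) : IsCorrSys (Gamma0 (N * q)) (Gamma0 N) famRes where
  det_ne _ := by simp [famRes]
  ex γ _ := ⟨(), inclGamma N q γ, by simp [famRes, mat_inclGamma]⟩
  uniq _ _ _ _ := rfl

theorem isCorrSys_delta (N q : ℕ) (hq : q ≠ 0) :
    IsCorrSys (Gamma0 (N * q)) (Gamma0 N) (famDelta q) where
  det_ne _ := by simp [famDelta, Matrix.det_fin_two_of, hq]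
  ex γ _ := by
    have hγ := (mem_Gamma0_iff_dvd (γ : SL(2, ℤ))).1 γ.2
    obtain ⟨c', hc'⟩ : ((N : ℤ) * (q : ℤ)) ∣ mat γ 1 0 := by
      have := hγ; push_cast at this; exact this
    have hdet : mat γ 0 0 * mat γ 1 1 - mat γ 0 1 * mat γ 1 0 = 1 := by
      have := (γ : SL(2, ℤ)).2
      rw [Matrix.det_fin_two] at this
      exact this
    refine ⟨(), ⟨⟨!![mat γ 0 0, (q : ℤ) * mat γ 0 1; (N : ℤ) * c', mat γ 1 1], ?_⟩, ?_⟩, ?_⟩
    · rw [Matrix.det_fin_two_of]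
      rw [hc'] at hdet
      linear_combination hdet
    · rw [mem_Gamma0_iff_dvd]
      exact ⟨c', by simp⟩
    · have hc'' : ((γ : SL(2, ℤ)) : Matrix (Fin 2) (Fin 2) ℤ) 1 0 = (N : ℤ) * c' * (q : ℤ) := by
        have : mat γ 1 0 = (N : ℤ) * c' * (q : ℤ) := by rw [hc']; ring
        exact this
      ext i j
      fin_cases i <;> fin_cases j <;>
        simp [famDelta, mat, Matrix.mul_apply, Fin.sum_univ_two, hc'']
      ring
  uniq _ _ _ _ := rfl

/-! ### The two degeneracy maps -/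

/-- Restriction `Hom(Γ₀(N), A) → Hom(Γ₀(N q), A)`. -/
noncomputable def alpha1 (N q : ℕ) (A : Type*) [AddCommGroup A] :
    (Additive (Gamma0 N) →+ A) →+ (Additive (Gamma0 (N * q)) →+ A) :=
  (isCorrSys_res N q).corrOp

/-- The second degeneracy map `ψ ↦ (g ↦ ψ (δ g δ⁻¹))`, `δ = diag(q, 1)`. -/
noncomputable def alpha2 (N q : ℕ) (A : Type*) [AddCommGroup A] :
    (Additive (Gamma0 N) →+ A) →+ (Additive (Gamma0 (N * q)) →+ A) :=
  if h : q ≠ 0 then (isCorrSys_delta N q h).corrOp else 0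

theorem alpha1_apply (N q : ℕ) {A : Type*} [AddCommGroup A] (φ : Additive (Gamma0 N) →+ A)
    (g : Gamma0 (N * q)) :
    alpha1 N q A φ (Additive.ofMul g) = φ (Additive.ofMul (inclGamma N q g)) := by
  rw [alpha1, IsCorrSys.corrOp_apply, Fintype.sum_unique]
  congr 2
  exact ((isCorrSys_res N q).unique (γ := g) (i := ()) (i' := ()) (γ' := inclGamma N q g)
    (by simp [famRes, mat_inclGamma])).2

/-- `alpha2 ψ g = ψ g'` whenever `δ g = g' δ`, i.e. `g' = [a, q b; c / q, d]`. -/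
theorem alpha2_apply {N q : ℕ} (hq : q ≠ 0) {A : Type*} [AddCommGroup A]
    (ψ : Additive (Gamma0 N) →+ A) (g : Gamma0 (N * q)) (g' : Gamma0 N)
    (h00 : mat g' 0 0 = mat g 0 0) (h01 : mat g' 0 1 = (q : ℤ) * mat g 0 1)
    (h10 : (q : ℤ) * mat g' 1 0 = mat g 1 0) (h11 : mat g' 1 1 = mat g 1 1) :
    alpha2 N q A ψ (Additive.ofMul g) = ψ (Additive.ofMul g') := by
  rw [alpha2, dif_pos hq, IsCorrSys.corrOp_apply, Fintype.sum_unique]
  congr 2
  refine ((isCorrSys_delta N q hq).unique (γ := g) (i := ()) (i' := ()) (γ' := g') ?_).2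
  have e00 : ((g' : SL(2, ℤ)) : Matrix (Fin 2) (Fin 2) ℤ) 0 0 =
      ((g : SL(2, ℤ)) : Matrix (Fin 2) (Fin 2) ℤ) 0 0 := h00
  have e01 : ((g' : SL(2, ℤ)) : Matrix (Fin 2) (Fin 2) ℤ) 0 1 =
      (q : ℤ) * ((g : SL(2, ℤ)) : Matrix (Fin 2) (Fin 2) ℤ) 0 1 := h01
  have e10 : ((g : SL(2, ℤ)) : Matrix (Fin 2) (Fin 2) ℤ) 1 0 =
      (q : ℤ) * ((g' : SL(2, ℤ)) : Matrix (Fin 2) (Fin 2) ℤ) 1 0 := h10.symm
  have e11 : ((g' : SL(2, ℤ)) : Matrix (Fin 2) (Fin 2) ℤ) 1 1 =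
      ((g : SL(2, ℤ)) : Matrix (Fin 2) (Fin 2) ℤ) 1 1 := h11
  ext i j
  fin_cases i <;> fin_cases j <;>
    simp [famDelta, mat, Matrix.mul_apply, Fin.sum_univ_two, e00, e01, e10, e11, mul_comm]

theorem alpha1_comp (N q : ℕ) {A B : Type*} [AddCommGroup A] [AddCommGroup B] (φ : A →+ B)
    (ψ : Additive (Gamma0 N) →+ A) : alpha1 N q B (φ.comp ψ) = φ.comp (alpha1 N q A ψ) :=
  IsCorrSys.corrOp_comp _ φ ψ

theorem alpha2_comp (N q : ℕ) {A B : Type*} [AddCommGroup A] [AddCommGroup B] (φ : A →+ B)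
    (ψ : Additive (Gamma0 N) →+ A) : alpha2 N q B (φ.comp ψ) = φ.comp (alpha2 N q A ψ) := by
  by_cases h : q ≠ 0
  · rw [alpha2, alpha2, dif_pos h, dif_pos h]
    exact IsCorrSys.corrOp_comp _ φ ψ
  · rw [alpha2, alpha2, dif_neg h, dif_neg h]
    refine AddMonoidHom.ext fun γ => ?_
    simp

end Fermat.Agent.S41.H41
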