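import Mathlib
import Fermat.Agent.S41.H41.Degeneracy
import Fermat.Agent.S41.H15.Gamma0Sym

/-!
# S41, unit U2: the two transfer systems are correspondence systems
-/

set_option autoImplicit false

open CongruenceSubgroup
open scoped MatrixGroups
open Fermat.Agent.S16.H75
open Fermat.Agent.S41.H15 (mk0 mk0_00 mk0_01 mk0_10 mk0_11 det_mat dvd_mat_10)

namespace Fermat.Agent.S41.H41

theorem gcd_ab_eq_one {N q : ℕ} (hq : q.Prime) (hqN : ¬ q ∣ N) :
    (q : ℤ) * Int.gcdA q N + (N : ℤ) * Int.gcdB q N = 1 := by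
  have h := Int.gcd_eq_gcd_ab (q : ℤ) (N : ℤ)
  have hcop : Int.gcd (q : ℤ) (N : ℤ) = 1 := by
    rw [Int.gcd_natCast_natCast]
    exact (Nat.Prime.coprime_iff_not_dvd hq).mpr hqN
  rw [hcop] at h
  simpa using h.symm

theorem exists_fin_dvd_sub {q : ℕ} (hq : q.Prime) (x : ℤ) {d : ℤ} (hd : ¬ (q : ℤ) ∣ d) :
    ∃ j : Fin q, (q : ℤ) ∣ x - d * ((j : ℕ) : ℤ) := by
  have hprime : Prime (q : ℤ) := Nat.prime_iff_prime_int.mp hq
  have hcop : IsCoprime d (q : ℤ) := (hprime.coprime_iff_not_dvd.mpr hd).symm
  obtain ⟨u, v, huv⟩ := hcop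
  have hqpos : (0 : ℤ) < q := by exact_mod_cast hq.pos
  have h0 := Int.emod_nonneg (x * u) hqpos.ne'
  have h1 := Int.emod_lt_of_pos (x * u) hqpos
  refine ⟨⟨((x * u) % q).toNat, by omega⟩, ?_⟩
  have hr := Int.emod_add_mul_ediv (x * u) q
  refine ⟨x * v + d * ((x * u) / q), ?_⟩
  show x - d * (((x * u) % (q : ℤ)).toNat : ℤ) = _
  rw [Int.toNat_of_nonneg h0]
  linear_combination (-x) * huv + (-d) * hr

theorem natCast_ne_zero_of_not_dvd {N q : ℕ} (hqN : ¬ q ∣ N) : (N : ℤ) ≠ 0 := by
  intro h
  apply hqN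
  have : N = 0 := by exact_mod_cast h
  rw [this]
  exact dvd_zero q

/-! ### The transfer system `famCor1` -/

theorem det_famCor1 {N q : ℕ} (hq : q.Prime) (hqN : ¬ q ∣ N) (i : Option (Fin q)) :
    (famCor1 N q i).det = 1 := by
  cases i with
  | none =>
    rw [famCor1, Matrix.det_fin_two_of]
    linear_combination gcd_ab_eq_one hq hqN
  | some j =>
    rw [famCor1, Matrix.det_fin_two_of]
    ring

theorem exists_cor1_decomp {N q : ℕ} (hq : q.Prime) (hqN : ¬ q ∣ N) (a0 b0 c0 d0 : ℤ)
    (hdet : a0 * d0 - b0 * ((N : ℤ) * c0) = 1) :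
    ∃ (i : Option (Fin q)) (γ' : Gamma0 (N * q)),
      !![a0, b0; (N : ℤ) * c0, d0] = mat γ' * famCor1 N q i := by
  have hab := gcd_ab_eq_one hq hqN
  by_cases hd : (q : ℤ) ∣ d0
  · obtain ⟨d1, rfl⟩ := hd
    refine ⟨none, mk0 (N * q) (a0 * q - b0 * N) (a0 * Int.gcdB q N + b0 * Int.gcdA q N)
      ((N : ℤ) * q * (c0 - d1)) ((N : ℤ) * c0 * Int.gcdB q N + q * d1 * Int.gcdA q N) ?_ ?_, ?_⟩
    · linear_combination (a0 * q * d1 - b0 * N * c0) * hab + hdet
    · push_cast
      exact dvd_mul_right _ _
    · ext i j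
      fin_cases i <;> fin_cases j
      · show a0 = _
        simp only [Matrix.mul_apply, Fin.sum_univ_two, famCor1]
        simp
        linear_combination (-a0) * hab
      · show b0 = _
        simp only [Matrix.mul_apply, Fin.sum_univ_two, famCor1]
        simp
        linear_combination (-b0) * hab
      · show (N : ℤ) * c0 = _
        simp only [Matrix.mul_apply, Fin.sum_univ_two, famCor1]
        simp
        linear_combination (-((N : ℤ) * c0)) * hab
      · show (q : ℤ) * d1 = _
        simp only [Matrix.mul_apply, Fin.sum_univ_two, famCor1]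
        simp
        linear_combination (-((q : ℤ) * d1)) * hab
  · obtain ⟨j, e, he⟩ := exists_fin_dvd_sub hq c0 hd
    refine ⟨some j, mk0 (N * q) (a0 - b0 * N * (j : ℕ)) b0 ((N : ℤ) * q * e) d0 ?_ ?_, ?_⟩
    · linear_combination hdet + b0 * N * he
    · push_cast
      exact dvd_mul_right _ _
    · ext i k
      fin_cases i <;> fin_cases k
      · show a0 = _
        simp only [Matrix.mul_apply, Fin.sum_univ_two, famCor1]
        simp
        ring
      · show b0 = _
        simp only [Matrix.mul_apply, Fin.sum_univ_two, famCor1]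
        simp
      · show (N : ℤ) * c0 = _
        simp only [Matrix.mul_apply, Fin.sum_univ_two, famCor1]
        simp
        linear_combination (N : ℤ) * he
      · show d0 = _
        simp only [Matrix.mul_apply, Fin.sum_univ_two, famCor1]
        simp

theorem exists_cor1_decomp' {N q : ℕ} (hq : q.Prime) (hqN : ¬ q ∣ N)
    (M : Matrix (Fin 2) (Fin 2) ℤ) (hdet : M.det = 1) (hM : (N : ℤ) ∣ M 1 0) :
    ∃ (i : Option (Fin q)) (γ' : Gamma0 (N * q)), M = mat γ' * famCor1 N q i := by
  obtain ⟨c0, hc0⟩ := hM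
  rw [Matrix.det_fin_two] at hdet
  obtain ⟨i, γ', h⟩ := exists_cor1_decomp hq hqN (M 0 0) (M 0 1) c0 (M 1 1)
    (by rw [← hc0]; linear_combination hdet)
  refine ⟨i, γ', ?_⟩
  rw [← h, ← hc0]
  exact Matrix.eta_fin_two M

theorem famCor1_10_dvd (N q : ℕ) (i : Option (Fin q)) : (N : ℤ) ∣ famCor1 N q i 1 0 := by
  cases i with
  | none => simp [famCor1]
  | some j => simp [famCor1]

/-- `[1 0; N j 1]` (`j < q`), `[a b; N q]` represent `Γ₀(N q) \ Γ₀(N)`. -/
theorem isCorrSys_cor1 {N q : ℕ} (hq : q.Prime) (hqN : ¬ q ∣ N) :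
    IsCorrSys (Gamma0 N) (Gamma0 (N * q)) (famCor1 N q) where
  det_ne i := by rw [det_famCor1 hq hqN]; exact one_ne_zero
  ex γ i := by
    refine exists_cor1_decomp' hq hqN _ ?_ ?_
    · rw [Matrix.det_mul, det_famCor1 hq hqN, one_mul]
      exact Matrix.SpecialLinearGroup.det_coe _
    · rw [Matrix.mul_apply, Fin.sum_univ_two]
      exact dvd_add (Dvd.dvd.mul_right (famCor1_10_dvd N q i) _)
        (Dvd.dvd.mul_left (dvd_mat_10 γ) _)
  uniq i i' g h := by
    have hN0 : (N : ℤ) ≠ 0 := natCast_ne_zero_of_not_dvd hqN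
    have hg : ((N : ℤ) * (q : ℤ)) ∣ mat g 1 0 := by
      have := dvd_mat_10 g
      push_cast at this
      exact this
    obtain ⟨t, ht⟩ := hg
    have e10 := congrFun (congrFun h 1) 0
    have e11 := congrFun (congrFun h 1) 1
    rw [Matrix.mul_apply, Fin.sum_univ_two] at e10 e11
    have hq1 : ¬ (q : ℤ) ∣ 1 := by
      intro hdvd
      have := Int.le_of_dvd one_pos hdvd
      have := hq.two_le
      omega
    cases i with
    | none =>
      cases i' with
      | none => rfl
      | some j' =>
        exfalso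
        simp [famCor1] at e10 e11
        rw [ht, ← e11] at e10
        apply hq1
        refine ⟨t + (j' : ℕ), ?_⟩
        have h2 : (N : ℤ) * 1 = (N : ℤ) * ((q : ℤ) * (t + ((j' : ℕ) : ℤ))) := by
          linear_combination e10
        exact mul_left_cancel₀ hN0 h2
    | some j =>
      cases i' with
      | none =>
        exfalso
        simp [famCor1] at e10 e11
        rw [ht] at e11
        apply hq1
        exact ⟨-((N : ℤ) * t * Int.gcdB q N) + mat g 1 1, by linear_combination e11⟩
      | some j' =>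
        simp [famCor1] at e10 e11
        rw [ht, ← e11] at e10
        have h2 : (N : ℤ) * (((j : ℕ) : ℤ) - ((j' : ℕ) : ℤ)) = (N : ℤ) * ((q : ℤ) * t) := by
          linear_combination e10
        have h3 := mul_left_cancel₀ hN0 h2
        have hdvd : (q : ℤ) ∣ ((j : ℕ) : ℤ) - ((j' : ℕ) : ℤ) := ⟨t, h3⟩
        have hlt : |((j : ℕ) : ℤ) - ((j' : ℕ) : ℤ)| < q := by
          have h1 := j.2
          have h2 := j'.2
          rw [abs_lt]
          constructor <;> omega
        have h0 := Int.eq_zero_of_abs_lt_dvd hdvd hlt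
        congr 1
        apply Fin.ext
        omega

/-! ### The twisted transfer system `famCor2` -/

theorem exists_cor2_decomp {N q : ℕ} (hq : q.Prime) (hqN : ¬ q ∣ N) (a0 b0 c0 d0 : ℤ)
    (hdet : a0 * d0 - b0 * ((N : ℤ) * c0) = 1) :
    ∃ (i : Option (Fin q)) (γ' : Gamma0 (N * q)),
      !![a0, b0; (q : ℤ) * ((N : ℤ) * c0), (q : ℤ) * d0] = mat γ' * famCor2 N q i := by
  have hab := gcd_ab_eq_one hq hqN
  by_cases ha : (q : ℤ) ∣ a0
  · obtain ⟨a1, rfl⟩ := ha
    refine ⟨none, mk0 (N * q) ((q : ℤ) * a1 * Int.gcdA q N - b0 * N) (a1 * Int.gcdB q N + b0)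
      ((N : ℤ) * q * (c0 * Int.gcdA q N - d0)) ((N : ℤ) * c0 * Int.gcdB q N + d0 * q) ?_ ?_, ?_⟩
    · linear_combination ((q : ℤ) * a1 * d0 - b0 * N * c0) * hab + hdet
    · push_cast
      exact dvd_mul_right _ _
    · ext i j
      fin_cases i <;> fin_cases j
      · show (q : ℤ) * a1 = _
        simp only [Matrix.mul_apply, Fin.sum_univ_two, famCor2]
        simp
        linear_combination (-((q : ℤ) * a1)) * hab
      · show b0 = _
        simp only [Matrix.mul_apply, Fin.sum_univ_two, famCor2]
        simp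
        linear_combination (-b0) * hab
      · show (q : ℤ) * ((N : ℤ) * c0) = _
        simp only [Matrix.mul_apply, Fin.sum_univ_two, famCor2]
        simp
        linear_combination (-((q : ℤ) * (N : ℤ) * c0)) * hab
      · show (q : ℤ) * d0 = _
        simp only [Matrix.mul_apply, Fin.sum_univ_two, famCor2]
        simp
        linear_combination (-((q : ℤ) * d0)) * hab
  · obtain ⟨j, e, he⟩ := exists_fin_dvd_sub hq b0 ha
    refine ⟨some j, mk0 (N * q) a0 e ((N : ℤ) * q * c0) (d0 - (j : ℕ) * N * c0) ?_ ?_, ?_⟩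
    · linear_combination hdet + ((N : ℤ) * c0) * he
    · push_cast
      exact dvd_mul_right _ _
    · ext i k
      fin_cases i <;> fin_cases k
      · show a0 = _
        simp only [Matrix.mul_apply, Fin.sum_univ_two, famCor2]
        simp
      · show b0 = _
        simp only [Matrix.mul_apply, Fin.sum_univ_two, famCor2]
        simp
        linear_combination he
      · show (q : ℤ) * ((N : ℤ) * c0) = _
        simp only [Matrix.mul_apply, Fin.sum_univ_two, famCor2]
        simp
        ring
      · show (q : ℤ) * d0 = _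
        simp only [Matrix.mul_apply, Fin.sum_univ_two, famCor2]
        simp
        ring

theorem det_famCor2 {N q : ℕ} (hq : q.Prime) (hqN : ¬ q ∣ N) (i : Option (Fin q)) :
    (famCor2 N q i).det = q := by
  cases i with
  | none =>
    rw [famCor2, Matrix.det_fin_two_of]
    linear_combination (q : ℤ) * gcd_ab_eq_one hq hqN
  | some j =>
    rw [famCor2, Matrix.det_fin_two_of]
    ring

/-- `[1 j; 0 q]` (`j < q`), `[q b; q N, q d]` form a `(Γ₀(N), Γ₀(N q))`-system. -/
theorem isCorrSys_cor2 {N q : ℕ} (hq : q.Prime) (hqN : ¬ q ∣ N) :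
    IsCorrSys (Gamma0 N) (Gamma0 (N * q)) (famCor2 N q) where
  det_ne i := by
    rw [det_famCor2 hq hqN]
    exact_mod_cast hq.ne_zero
  ex γ i := by
    have hab := gcd_ab_eq_one hq hqN
    obtain ⟨c1, hc1⟩ := dvd_mat_10 γ
    have hdet := det_mat γ
    cases i with
    | none =>
      obtain ⟨i', γ', h⟩ := exists_cor2_decomp hq hqN
        ((q : ℤ) * mat γ 0 0 - Int.gcdB q N * mat γ 1 0)
        ((q : ℤ) * mat γ 0 1 - Int.gcdB q N * mat γ 1 1)
        (mat γ 0 0 + Int.gcdA q N * c1)
        ((N : ℤ) * mat γ 0 1 + Int.gcdA q N * mat γ 1 1) (by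
          rw [hc1] at hdet ⊢
          linear_combination (mat γ 0 0 * mat γ 1 1 - mat γ 0 1 * ((N : ℤ) * c1)) * hab + hdet)
      refine ⟨i', γ', ?_⟩
      rw [← h]
      ext i k
      fin_cases i <;> fin_cases k
      · simp [famCor2, Matrix.mul_apply, Fin.sum_univ_two]
        ring
      · simp [famCor2, Matrix.mul_apply, Fin.sum_univ_two]
        ring
      · simp [famCor2, Matrix.mul_apply, Fin.sum_univ_two]
        rw [hc1]
        ring
      · simp [famCor2, Matrix.mul_apply, Fin.sum_univ_two]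
        ring
    | some j =>
      obtain ⟨i', γ', h⟩ := exists_cor2_decomp hq hqN
        (mat γ 0 0 + (j : ℕ) * mat γ 1 0) (mat γ 0 1 + (j : ℕ) * mat γ 1 1) c1 (mat γ 1 1) (by
          rw [hc1] at hdet ⊢
          linear_combination hdet)
      refine ⟨i', γ', ?_⟩
      rw [← h]
      ext i k
      fin_cases i <;> fin_cases k
      · simp [famCor2, Matrix.mul_apply, Fin.sum_univ_two]
      · simp [famCor2, Matrix.mul_apply, Fin.sum_univ_two]
      · simp only [famCor2, Matrix.mul_apply, Fin.sum_univ_two]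
        simp only [Fin.mk_one, Fin.isValue, Matrix.of_apply, Matrix.cons_val', Matrix.cons_val_zero,
          Matrix.cons_val_fin_one, Matrix.cons_val_one, Fin.zero_eta, zero_mul, zero_add]
        rw [hc1]
      · simp [famCor2, Matrix.mul_apply, Fin.sum_univ_two]
  uniq i i' g h := by
    have hq1 : ¬ (q : ℤ) ∣ 1 := by
      intro hdvd
      have := Int.le_of_dvd one_pos hdvd
      have := hq.two_le
      omega
    cases i with
    | none =>
      cases i' with
      | none => rfl
      | some j' =>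
        exfalso
        have e00 := congrFun (congrFun h 0) 0
        have e10 := congrFun (congrFun h 1) 0
        rw [Matrix.mul_apply, Fin.sum_univ_two] at e00 e10
        simp [famCor2] at e00 e10
        have hdet := det_mat g
        rw [← e00, ← e10] at hdet
        exact hq1 ⟨mat g 1 1 - mat g 0 1 * N, by linear_combination (-1 : ℤ) * hdet⟩
    | some j =>
      cases i' with
      | none =>
        exfalso
        have e00 := congrFun (congrFun h 0) 0
        rw [Matrix.mul_apply, Fin.sum_univ_two] at e00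
        simp [famCor2] at e00
        exact hq1 ⟨mat g 0 0 + mat g 0 1 * N, by linear_combination e00⟩
      | some j' =>
        exact congrArg some (alphaFin_unique (g : SL(2, ℤ)) h)

end Fermat.Agent.S41.H41
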