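import Mathlib
import Fermat.Agent.S41.H41.TransferSys

/-!
# S41, unit U2 (definitions): the two transfers `Hom(Γ₀(N q), A) → Hom(Γ₀(N), A)`

`beta1` is the transfer for `Γ₀(N q) ≤ Γ₀(N)` and `beta2` the transfer twisted by
`δ = diag(q, 1)`; both are correspondence operators (`TransferSys.lean`).
-/

set_option autoImplicit false

open CongruenceSubgroup
open scoped MatrixGroups
open Fermat.Agent.S16.H75

namespace Fermat.Agent.S41.H41

/-- The transfer (corestriction) `Hom(Γ₀(N q), A) → Hom(Γ₀(N), A)`. -/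
noncomputable def beta1 (N q : ℕ) (A : Type*) [AddCommGroup A] :
    (Additive (Gamma0 (N * q)) →+ A) →+ (Additive (Gamma0 N) →+ A) :=
  open Classical in
  if h : q.Prime ∧ ¬ q ∣ N then (isCorrSys_cor1 h.1 h.2).corrOp else 0

/-- The transfer twisted by `δ = diag(q, 1)`: `Hom(Γ₀(N q), A) → Hom(Γ₀(N), A)`. -/
noncomputable def beta2 (N q : ℕ) (A : Type*) [AddCommGroup A] :
    (Additive (Gamma0 (N * q)) →+ A) →+ (Additive (Gamma0 N) →+ A) :=
  open Classical in
  if h : q.Prime ∧ ¬ q ∣ N then (isCorrSys_cor2 h.1 h.2).corrOp else 0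

theorem beta1_eq {N q : ℕ} (hq : q.Prime) (hqN : ¬ q ∣ N) (A : Type*) [AddCommGroup A] :
    beta1 N q A = (isCorrSys_cor1 hq hqN).corrOp := dif_pos ⟨hq, hqN⟩

theorem beta2_eq {N q : ℕ} (hq : q.Prime) (hqN : ¬ q ∣ N) (A : Type*) [AddCommGroup A] :
    beta2 N q A = (isCorrSys_cor2 hq hqN).corrOp := dif_pos ⟨hq, hqN⟩

theorem beta1_comp (N q : ℕ) {A B : Type*} [AddCommGroup A] [AddCommGroup B] (φ : A →+ B)
    (ψ : Additive (Gamma0 (N * q)) →+ A) : beta1 N q B (φ.comp ψ) = φ.comp (beta1 N q A ψ) := by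
  classical
  by_cases h : q.Prime ∧ ¬ q ∣ N
  · rw [beta1, beta1, dif_pos h, dif_pos h]
    exact IsCorrSys.corrOp_comp _ φ ψ
  · rw [beta1, beta1, dif_neg h, dif_neg h]
    refine AddMonoidHom.ext fun γ => ?_
    simp

theorem beta2_comp (N q : ℕ) {A B : Type*} [AddCommGroup A] [AddCommGroup B] (φ : A →+ B)
    (ψ : Additive (Gamma0 (N * q)) →+ A) : beta2 N q B (φ.comp ψ) = φ.comp (beta2 N q A ψ) := by
  classical
  by_cases h : q.Prime ∧ ¬ q ∣ N
  · rw [beta2, beta2, dif_pos h, dif_pos h]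
    exact IsCorrSys.corrOp_comp _ φ ψ
  · rw [beta2, beta2, dif_neg h, dif_neg h]
    refine AddMonoidHom.ext fun γ => ?_
    simp

end Fermat.Agent.S41.H41
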