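import Mathlib
import Fermat.Agent.S41.H41.Transfer

/-!
# S41, unit U2: the two transfers in group-element form

`beta1` and `beta2` are defined in `Transfer.lean` as correspondence operators of the matrix
families `famCor1`, `famCor2`.  This file rewrites both systems in terms of group elements:

* `t1 i ∈ Γ₀(N)` with `mat (t1 i) = famCor1 N q i`, and
  `incl (coc₁ γ i) = t1 i * γ * (t1 (perm₁ γ i))⁻¹`: `beta1` is the transfer along the right
  transversal `t1` of `Γ₀(N q)` in `Γ₀(N)`;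
* `conjDelta : Γ₀(N q) →* Γ₀(N)`, `g ↦ δ g δ⁻¹` (`δ = diag(q, 1)`), injective with image
  `{g ∈ Γ₀(N) | q ∣ g 0 1}`; `t2 i ∈ Γ₀(N)` with `famCor2 N q i = diag(1, q) * mat (t2 i)`, and
  `conjDelta (coc₂ γ i) = t2 i * γ * (t2 (perm₂ γ i))⁻¹`: `beta2` is the transfer along the right
  transversal `t2` of `conjDelta (Γ₀(N q))` in `Γ₀(N)`, pulled back by `conjDelta`.
-/

set_option autoImplicit false

open CongruenceSubgroup
open scoped MatrixGroups
open Fermat.Agent.S16.H75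
open Fermat.Agent.S41.H15 (mk0 mk0_00 mk0_01 mk0_10 mk0_11 det_mat dvd_mat_10 gamma0_ext)

namespace Fermat.Agent.S41.H41

variable {N q : ℕ}

/-- Left cancellation of an integer matrix of nonzero determinant. -/
theorem mul_left_cancel_of_det_ne_zero {A B M : Matrix (Fin 2) (Fin 2) ℤ} (hM : M.det ≠ 0)
    (h : M * A = M * B) : A = B := by
  have h1 : M.adjugate * (M * A) = M.adjugate * (M * B) := by rw [h]
  rw [← Matrix.mul_assoc, ← Matrix.mul_assoc, Matrix.adjugate_mul] at h1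
  ext i j
  have h2 := congrFun (congrFun h1 i) j
  simp only [Matrix.smul_mul, Matrix.one_mul, Matrix.smul_apply, smul_eq_mul] at h2
  exact mul_left_cancel₀ hM h2

/-! ### The first transfer: the transversal `t1` of `Γ₀(N q)` in `Γ₀(N)` -/

/-- The representatives `famCor1` as elements of `Γ₀(N)`. -/
noncomputable def t1 (hq : q.Prime) (hqN : ¬ q ∣ N) : Option (Fin q) → Gamma0 N
  | some j => mk0 N 1 0 ((N : ℤ) * ((j : ℕ) : ℤ)) 1 (by ring) (dvd_mul_right _ _)
  | none => mk0 N (Int.gcdA q N) (-Int.gcdB q N) N q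
      (by linear_combination gcd_ab_eq_one hq hqN) dvd_rfl

theorem mat_t1 (hq : q.Prime) (hqN : ¬ q ∣ N) (i : Option (Fin q)) :
    mat (t1 hq hqN i) = famCor1 N q i := by
  cases i <;> rfl

theorem famCor1_eq (hq : q.Prime) (hqN : ¬ q ∣ N) :
    famCor1 N q = fun i => mat (t1 hq hqN i) :=
  funext fun i => (mat_t1 hq hqN i).symm

theorem inclGamma_injective (N q : ℕ) : Function.Injective (inclGamma N q) := by
  intro g g' h
  apply mat_injective
  rw [← mat_inclGamma g, ← mat_inclGamma g', h]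

theorem mem_range_inclGamma_iff (g : Gamma0 N) :
    g ∈ (inclGamma N q).range ↔ ((N : ℤ) * (q : ℤ)) ∣ mat g 1 0 := by
  constructor
  · rintro ⟨h, rfl⟩
    have := dvd_mat_10 h
    push_cast at this
    exact this
  · intro h
    refine ⟨⟨(g : SL(2, ℤ)), (mem_Gamma0_iff_dvd _).mpr ?_⟩, ?_⟩
    · push_cast
      exact h
    · exact mat_injective rfl

/-- The cocycle of the first transfer system, in group-element form. -/
theorem inclGamma_coc1 (hq : q.Prime) (hqN : ¬ q ∣ N) (γ : Gamma0 N) (i : Option (Fin q)) :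
    inclGamma N q ((isCorrSys_cor1 hq hqN).coc γ i) =
      t1 hq hqN i * γ * (t1 hq hqN ((isCorrSys_cor1 hq hqN).perm γ i))⁻¹ := by
  rw [eq_mul_inv_iff_mul_eq]
  apply mat_injective
  rw [mat_mul, mat_mul, mat_inclGamma, mat_t1, mat_t1]
  exact ((isCorrSys_cor1 hq hqN).spec γ i).symm

/-- `Γ₀(N) = ⋃ᵢ Γ₀(N q) t1ᵢ`. -/
theorem exists_eq_incl_mul_t1 (hq : q.Prime) (hqN : ¬ q ∣ N) (g : Gamma0 N) :
    ∃ (h : Gamma0 (N * q)) (j : Option (Fin q)), g = inclGamma N q h * t1 hq hqN j := by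
  obtain ⟨i, γ', h⟩ := exists_cor1_decomp' hq hqN (mat g)
    (Matrix.SpecialLinearGroup.det_coe _) (dvd_mat_10 g)
  refine ⟨γ', i, mat_injective ?_⟩
  rw [mat_mul, mat_inclGamma, mat_t1]
  exact h

/-- The cosets `Γ₀(N q) t1ᵢ` are pairwise distinct. -/
theorem t1_unique (hq : q.Prime) (hqN : ¬ q ∣ N) (h : Gamma0 (N * q)) (j j' : Option (Fin q))
    (e : inclGamma N q h * t1 hq hqN j = t1 hq hqN j') : j = j' := by
  refine ((isCorrSys_cor1 hq hqN).uniq j' j h ?_).symm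
  rw [← mat_t1 hq hqN, ← mat_t1 hq hqN, ← e, mat_mul, mat_inclGamma]

theorem beta1_apply (hq : q.Prime) (hqN : ¬ q ∣ N) {A : Type*} [AddCommGroup A]
    (u : Additive (Gamma0 (N * q)) →+ A) (γ : Gamma0 N) :
    beta1 N q A u (Additive.ofMul γ) =
      ∑ i, u (Additive.ofMul ((isCorrSys_cor1 hq hqN).coc γ i)) := by
  rw [beta1_eq hq hqN, IsCorrSys.corrOp_apply]

/-! ### Conjugation by `δ = diag(q, 1)` -/

/-- `g = [a b; c d] ↦ δ g δ⁻¹ = [a, q b; c / q, d]`, a homomorphism `Γ₀(N q) → Γ₀(N)`. -/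
noncomputable def conjDelta (N q : ℕ) (hq0 : q ≠ 0) : Gamma0 (N * q) →* Gamma0 N where
  toFun g := (isCorrSys_delta N q hq0).coc g ()
  map_one' := (isCorrSys_delta N q hq0).coc_one ()
  map_mul' g g' := (isCorrSys_delta N q hq0).coc_mul g g' ()

theorem conjDelta_spec (hq0 : q ≠ 0) (g : Gamma0 (N * q)) :
    famDelta q () * mat g = mat (conjDelta N q hq0 g) * famDelta q () :=
  (isCorrSys_delta N q hq0).spec g ()

theorem famDelta_00 (q : ℕ) : famDelta q () 0 0 = (q : ℤ) := by simp [famDelta]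

theorem famDelta_01 (q : ℕ) : famDelta q () 0 1 = 0 := by simp [famDelta]

theorem famDelta_10 (q : ℕ) : famDelta q () 1 0 = 0 := by simp [famDelta]

theorem famDelta_11 (q : ℕ) : famDelta q () 1 1 = 1 := by simp [famDelta]

theorem conjDelta_00 (hq0 : q ≠ 0) (g : Gamma0 (N * q)) :
    mat (conjDelta N q hq0 g) 0 0 = mat g 0 0 := by
  have h := congrFun (congrFun (conjDelta_spec (N := N) hq0 g) 0) 0
  rw [Matrix.mul_apply, Matrix.mul_apply, Fin.sum_univ_two, Fin.sum_univ_two,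
    famDelta_00, famDelta_01, famDelta_10] at h
  have hq' : (q : ℤ) ≠ 0 := by exact_mod_cast hq0
  refine mul_left_cancel₀ hq' ?_
  linear_combination -h

theorem conjDelta_01 (hq0 : q ≠ 0) (g : Gamma0 (N * q)) :
    mat (conjDelta N q hq0 g) 0 1 = (q : ℤ) * mat g 0 1 := by
  have h := congrFun (congrFun (conjDelta_spec (N := N) hq0 g) 0) 1
  rw [Matrix.mul_apply, Matrix.mul_apply, Fin.sum_univ_two, Fin.sum_univ_two,
    famDelta_00, famDelta_01, famDelta_11] at h
  linear_combination -h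

theorem conjDelta_10 (hq0 : q ≠ 0) (g : Gamma0 (N * q)) :
    (q : ℤ) * mat (conjDelta N q hq0 g) 1 0 = mat g 1 0 := by
  have h := congrFun (congrFun (conjDelta_spec (N := N) hq0 g) 1) 0
  rw [Matrix.mul_apply, Matrix.mul_apply, Fin.sum_univ_two, Fin.sum_univ_two,
    famDelta_00, famDelta_10, famDelta_11] at h
  linear_combination -h

theorem conjDelta_11 (hq0 : q ≠ 0) (g : Gamma0 (N * q)) :
    mat (conjDelta N q hq0 g) 1 1 = mat g 1 1 := by
  have h := congrFun (congrFun (conjDelta_spec (N := N) hq0 g) 1) 1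
  rw [Matrix.mul_apply, Matrix.mul_apply, Fin.sum_univ_two, Fin.sum_univ_two,
    famDelta_01, famDelta_10, famDelta_11] at h
  linear_combination -h

/-- `conjDelta g` is characterised by `δ g = g' δ`. -/
theorem conjDelta_eq_of_spec (hq0 : q ≠ 0) (g : Gamma0 (N * q)) (g' : Gamma0 N)
    (h : famDelta q () * mat g = mat g' * famDelta q ()) : conjDelta N q hq0 g = g' :=
  ((isCorrSys_delta N q hq0).unique (γ := g) (i := ()) (i' := ()) (γ' := g') h).2

theorem conjDelta_injective (hq0 : q ≠ 0) : Function.Injective (conjDelta N q hq0) := by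
  intro g g' h
  have hq' : (q : ℤ) ≠ 0 := by exact_mod_cast hq0
  apply mat_injective
  refine mul_left_cancel_of_det_ne_zero (M := famDelta q ()) ?_ ?_
  · simp [famDelta, Matrix.det_fin_two_of, hq0]
  · rw [conjDelta_spec hq0, conjDelta_spec hq0, h]

/-- `diag(1, q) * (δ g δ⁻¹) = g * diag(1, q)`. -/
theorem diag_mul_conjDelta (hq0 : q ≠ 0) (g : Gamma0 (N * q)) :
    !![1, 0; 0, (q : ℤ)] * mat (conjDelta N q hq0 g) = mat g * !![1, 0; 0, (q : ℤ)] := by
  have h00 := conjDelta_00 (N := N) hq0 g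
  have h01 := conjDelta_01 (N := N) hq0 g
  have h10 := conjDelta_10 (N := N) hq0 g
  have h11 := conjDelta_11 (N := N) hq0 g
  ext i j
  fin_cases i <;> fin_cases j
  · simp [Matrix.mul_apply, Fin.sum_univ_two]
    exact h00
  · simp [Matrix.mul_apply, Fin.sum_univ_two]
    rw [h01]; ring
  · simp [Matrix.mul_apply, Fin.sum_univ_two]
    exact h10
  · simp [Matrix.mul_apply, Fin.sum_univ_two]
    rw [h11]; ring

/-- The image of `conjDelta` is `Γ₀(N) ∩ Γ⁰(q)`. -/
theorem mem_range_conjDelta_iff (hq0 : q ≠ 0) (g : Gamma0 N) :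
    g ∈ (conjDelta N q hq0).range ↔ (q : ℤ) ∣ mat g 0 1 := by
  constructor
  · rintro ⟨h, rfl⟩
    rw [conjDelta_01]
    exact dvd_mul_right _ _
  · rintro ⟨b0, hb0⟩
    obtain ⟨c0, hc0⟩ := dvd_mat_10 g
    have hdet := det_mat g
    refine ⟨mk0 (N * q) (mat g 0 0) b0 ((N : ℤ) * q * c0) (mat g 1 1) ?_ ?_, ?_⟩
    · rw [hb0, hc0] at hdet
      linear_combination hdet
    · push_cast
      exact dvd_mul_right _ _
    · refine conjDelta_eq_of_spec hq0 _ g ?_
      ext i j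
      fin_cases i <;> fin_cases j
      · simp [famDelta, Matrix.mul_apply, Fin.sum_univ_two]
        exact mul_comm _ _
      · simp [famDelta, Matrix.mul_apply, Fin.sum_univ_two]
        exact hb0.symm
      · simp [famDelta, Matrix.mul_apply, Fin.sum_univ_two]
        rw [hc0]; ring
      · simp [famDelta, Matrix.mul_apply, Fin.sum_univ_two]

theorem alpha2_eq_conjDelta (hq0 : q ≠ 0) {A : Type*} [AddCommGroup A]
    (ψ : Additive (Gamma0 N) →+ A) (g : Gamma0 (N * q)) :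
    alpha2 N q A ψ (Additive.ofMul g) = ψ (Additive.ofMul (conjDelta N q hq0 g)) := by
  rw [alpha2, dif_pos hq0, IsCorrSys.corrOp_apply, Fintype.sum_unique]
  rfl

/-! ### The second transfer: the transversal `t2` of `conjDelta (Γ₀(N q))` in `Γ₀(N)` -/

/-- Representatives of `(Γ₀(N) ∩ Γ⁰(q)) \ Γ₀(N)`: `[1 j; 0 1]` (`j < q`) and `[q, -b; N, a]`. -/
noncomputable def t2 (hq : q.Prime) (hqN : ¬ q ∣ N) : Option (Fin q) → Gamma0 N
  | some j => mk0 N 1 ((j : ℕ) : ℤ) 0 1 (by ring) (dvd_zero _)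
  | none => mk0 N q (-Int.gcdB q N) N (Int.gcdA q N)
      (by linear_combination gcd_ab_eq_one hq hqN) dvd_rfl

theorem famCor2_eq (hq : q.Prime) (hqN : ¬ q ∣ N) (i : Option (Fin q)) :
    famCor2 N q i = !![1, 0; 0, (q : ℤ)] * mat (t2 hq hqN i) := by
  cases i with
  | none =>
    have e : mat (t2 hq hqN none) = !![(q : ℤ), -Int.gcdB q N; (N : ℤ), Int.gcdA q N] := rfl
    rw [e, famCor2]
    ext i j
    fin_cases i <;> fin_cases j <;> simp [Matrix.mul_apply, Fin.sum_univ_two]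
  | some j =>
    have e : mat (t2 hq hqN (some j)) = !![1, ((j : ℕ) : ℤ); 0, 1] := rfl
    rw [e, famCor2]
    ext i j
    fin_cases i <;> fin_cases j <;> simp [Matrix.mul_apply, Fin.sum_univ_two]

/-- `diag(1, q) x = g' diag(1, q) y` means `x = (δ g' δ⁻¹) y`. -/
theorem eq_conjDelta_mul_of_diag (hq0 : q ≠ 0) (g' : Gamma0 (N * q)) (x y : Gamma0 N)
    (h : !![1, 0; 0, (q : ℤ)] * mat x = mat g' * (!![1, 0; 0, (q : ℤ)] * mat y)) :
    x = conjDelta N q hq0 g' * y := by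
  apply mat_injective
  refine mul_left_cancel_of_det_ne_zero (M := !![1, 0; 0, (q : ℤ)]) ?_ ?_
  · simp [Matrix.det_fin_two_of, hq0]
  · rw [h, mat_mul, ← Matrix.mul_assoc, ← Matrix.mul_assoc, diag_mul_conjDelta]

/-- The cocycle of the second transfer system, in group-element form. -/
theorem conjDelta_coc2 (hq : q.Prime) (hqN : ¬ q ∣ N) (γ : Gamma0 N) (i : Option (Fin q)) :
    conjDelta N q hq.ne_zero ((isCorrSys_cor2 hq hqN).coc γ i) =
      t2 hq hqN i * γ * (t2 hq hqN ((isCorrSys_cor2 hq hqN).perm γ i))⁻¹ := by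
  rw [eq_mul_inv_iff_mul_eq]
  refine (eq_conjDelta_mul_of_diag hq.ne_zero _ _ _ ?_).symm
  have h := (isCorrSys_cor2 hq hqN).spec γ i
  rw [famCor2_eq hq hqN, famCor2_eq hq hqN] at h
  rw [mat_mul, ← Matrix.mul_assoc]
  exact h

/-- `Γ₀(N) = ⋃ᵢ conjDelta(Γ₀(N q)) t2ᵢ`. -/
theorem exists_eq_conj_mul_t2 (hq : q.Prime) (hqN : ¬ q ∣ N) (g : Gamma0 N) :
    ∃ (h : Gamma0 (N * q)) (j : Option (Fin q)),
      g = conjDelta N q hq.ne_zero h * t2 hq hqN j := by
  obtain ⟨c0, hc0⟩ := dvd_mat_10 g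
  have hdet := det_mat g
  obtain ⟨i, γ', h⟩ := exists_cor2_decomp hq hqN (mat g 0 0) (mat g 0 1) c0 (mat g 1 1)
    (by rw [hc0] at hdet; linear_combination hdet)
  refine ⟨γ', i, eq_conjDelta_mul_of_diag hq.ne_zero _ _ _ ?_⟩
  rw [← famCor2_eq hq hqN, ← h, ← hc0]
  ext i j
  fin_cases i <;> fin_cases j <;> simp [Matrix.mul_apply, Fin.sum_univ_two]

/-- The cosets `conjDelta(Γ₀(N q)) t2ᵢ` are pairwise distinct. -/
theorem t2_unique (hq : q.Prime) (hqN : ¬ q ∣ N) (h : Gamma0 (N * q)) (j j' : Option (Fin q))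
    (e : conjDelta N q hq.ne_zero h * t2 hq hqN j = t2 hq hqN j') : j = j' := by
  refine ((isCorrSys_cor2 hq hqN).uniq j' j h ?_).symm
  rw [famCor2_eq hq hqN, famCor2_eq hq hqN, ← e, mat_mul, ← Matrix.mul_assoc,
    diag_mul_conjDelta, Matrix.mul_assoc]

theorem beta2_apply (hq : q.Prime) (hqN : ¬ q ∣ N) {A : Type*} [AddCommGroup A]
    (u : Additive (Gamma0 (N * q)) →+ A) (γ : Gamma0 N) :
    beta2 N q A u (Additive.ofMul γ) =
      ∑ i, u (Additive.ofMul ((isCorrSys_cor2 hq hqN).coc γ i)) := by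
  rw [beta2_eq hq hqN, IsCorrSys.corrOp_apply]

/-! ### `±1` lies in both images -/

theorem mem_range_inclGamma_of_coe_eq_neg_one (z : Gamma0 N)
    (hz : (z : SL(2, ℤ)) = -1) : z ∈ (inclGamma N q).range := by
  rw [mem_range_inclGamma_iff]
  have : mat z 1 0 = 0 := by
    show ((z : SL(2, ℤ)) : Matrix (Fin 2) (Fin 2) ℤ) 1 0 = 0
    rw [hz]
    simp
  rw [this]
  exact dvd_zero _

theorem mem_range_conjDelta_of_coe_eq_neg_one (hq0 : q ≠ 0) (z : Gamma0 N)
    (hz : (z : SL(2, ℤ)) = -1) : z ∈ (conjDelta N q hq0).range := by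
  rw [mem_range_conjDelta_iff]
  have : mat z 0 1 = 0 := by
    show ((z : SL(2, ℤ)) : Matrix (Fin 2) (Fin 2) ℤ) 0 1 = 0
    rw [hz]
    simp
  rw [this]
  exact dvd_zero _

end Fermat.Agent.S41.H41
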